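/-
S37-ValNorm (task 530), owner helper150.  Abstract part (Mathlib only):
* determinant of an endomorphism along a surjection with one dimensional kernel;
* norm of an element in `B ⧸ (a t)` versus `B ⧸ (a)`;
* norm and reduction modulo the maximal ideal of a local ring.
-/
import Mathlib

set_option autoImplicit false

namespace Fermat.Agent.S37.ValNorm

open Module

section LinAlg

variable {K V V' : Type*} [Field K] [AddCommGroup V] [Module K V] [AddCommGroup V'] [Module K V']

theorem det_eq_mul_of_ker [FiniteDimensional K V] (φ : V →ₗ[K] V')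
    (hφ : Function.Surjective φ) (e : V →ₗ[K] V) (e' : V' →ₗ[K] V')
    (hcomm : ∀ x, φ (e x) = e' (φ x)) (c : K) (hc : ∀ x ∈ LinearMap.ker φ, e x = c • x)
    (h1 : finrank K (LinearMap.ker φ) = 1) : LinearMap.det e = c * LinearMap.det e' := by
  have he : LinearMap.ker φ ≤ (LinearMap.ker φ).comap e := by
    intro x hx
    rw [Submodule.mem_comap, LinearMap.mem_ker, hcomm, LinearMap.mem_ker.1 hx, map_zero]
  rw [LinearMap.det_eq_det_mul_det (LinearMap.ker φ) e he]
  congr 1
  · have h2 : (e.restrict he : LinearMap.ker φ →ₗ[K] LinearMap.ker φ) = c • LinearMap.id := by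
      ext x
      simp [LinearMap.restrict_apply, hc x.1 x.2]
    rw [h2, LinearMap.det_smul, h1, pow_one, LinearMap.det_id, mul_one]
  · set ψ := φ.quotKerEquivOfSurjective hφ with hψ
    have h3 : e' = (ψ : _ →ₗ[K] V') ∘ₗ ((LinearMap.ker φ).mapQ (LinearMap.ker φ) e he) ∘ₗ
        (ψ.symm : V' →ₗ[K] _) := by
      ext y
      obtain ⟨x, rfl⟩ := hφ y
      have h4 : ψ.symm (φ x) = Submodule.Quotient.mk x := by
        rw [LinearEquiv.symm_apply_eq]
        rfl
      simp only [LinearMap.comp_apply, LinearEquiv.coe_coe, h4]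
      rw [Submodule.mapQ_apply]
      show e' (φ x) = φ (e x)
      rw [hcomm]
    rw [h3, LinearMap.det_conj]

end LinAlg

section Ring

/-- `B ⧸ I` is finite dimensional over `K` and the norm of `z` there is `d`. -/
def GoodI (K : Type*) {B : Type*} [Field K] [CommRing B] [Algebra K B] (z : B) (I : Ideal B)
    (d : K) : Prop :=
  Module.Finite K (B ⧸ I) ∧ Algebra.norm K (Ideal.Quotient.mk I z) = d

/-- `B ⧸ (a)` is finite dimensional over `K` and the norm of `z` there is `d`. -/
def GoodAt (K : Type*) {B : Type*} [Field K] [CommRing B] [Algebra K B] (z a : B) (d : K) : Prop :=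
  GoodI K z (Ideal.span {a}) d

variable {K B : Type*} [Field K] [CommRing B] [Algebra K B]

theorem goodAt_one (z : B) : GoodAt K z 1 1 := by
  have hs : Subsingleton (B ⧸ Ideal.span {(1 : B)}) := by
    rw [Ideal.span_singleton_one]
    exact Ideal.Quotient.subsingleton_iff.2 rfl
  refine ⟨inferInstance, ?_⟩
  rw [Algebra.norm_apply]
  exact LinearMap.det_eq_one_of_subsingleton _

variable [IsDomain B]

theorem GoodAt.of_associated {z a a' : B} {d : K} (h : GoodAt K z a d) (ha : Associated a a') :
    GoodAt K z a' d := by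
  unfold GoodAt at h ⊢
  rw [← Ideal.span_singleton_eq_span_singleton.2 ha]
  exact h

theorem GoodAt.mul {z a t : B} {c d : K} (h : GoodAt K z a d) (ha : a ≠ 0) (ht : ¬ IsUnit t)
    (hres : ∀ b : B, ∃ k : K, t ∣ b - algebraMap K B k) (hz : t ∣ z - algebraMap K B c) :
    GoodAt K z (a * t) (d * c) := by
  obtain ⟨hfin, hnorm⟩ := h
  have hIJ : Ideal.span {a * t} ≤ Ideal.span {a} := by
    rw [Ideal.span_singleton_le_span_singleton]
    exact Dvd.intro _ rfl
  set φ : (B ⧸ Ideal.span {a * t}) →ₗ[K] (B ⧸ Ideal.span {a}) :=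
    (Ideal.Quotient.factorₐ K hIJ).toLinearMap with hφdef
  have hφmk : ∀ b : B, φ (Ideal.Quotient.mk _ b) = Ideal.Quotient.mk _ b := fun b => rfl
  have hφ : Function.Surjective φ := by
    intro y
    obtain ⟨b, rfl⟩ := Ideal.Quotient.mk_surjective y
    exact ⟨Ideal.Quotient.mk _ b, hφmk b⟩
  have hsmul : ∀ (k : K) (b : B), k • (Ideal.Quotient.mk (Ideal.span {a * t}) b) =
      Ideal.Quotient.mk (Ideal.span {a * t}) (algebraMap K B k * b) := by
    intro k b
    rw [Algebra.smul_def, map_mul]
    rfl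
  have hker : LinearMap.ker φ = K ∙ (Ideal.Quotient.mk (Ideal.span {a * t}) a) := by
    apply le_antisymm
    · intro x hx
      obtain ⟨b, rfl⟩ := Ideal.Quotient.mk_surjective x
      rw [LinearMap.mem_ker, hφmk, Ideal.Quotient.eq_zero_iff_mem, Ideal.mem_span_singleton] at hx
      obtain ⟨b', rfl⟩ := hx
      obtain ⟨k, s, hs⟩ := hres b'
      rw [Submodule.mem_span_singleton]
      refine ⟨k, ?_⟩
      rw [hsmul, Ideal.Quotient.eq, Ideal.mem_span_singleton]
      refine ⟨-s, ?_⟩
      linear_combination (-a) * hs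
    · rw [Submodule.span_singleton_le_iff_mem, LinearMap.mem_ker, hφmk,
        Ideal.Quotient.eq_zero_iff_mem]
      exact Ideal.mem_span_singleton_self a
  have hne : Ideal.Quotient.mk (Ideal.span {a * t}) a ≠ 0 := by
    rw [Ne, Ideal.Quotient.eq_zero_iff_mem, Ideal.mem_span_singleton]
    rintro ⟨s, hs⟩
    apply ht
    have h1 : a * (t * s) = a * 1 := by rw [mul_one, ← mul_assoc, ← hs]
    exact IsUnit.of_mul_eq_one _ (mul_left_cancel₀ ha h1)
  have h1 : finrank K (LinearMap.ker φ) = 1 := by
    rw [hker]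
    exact finrank_span_singleton hne
  have hfinker : Module.Finite K (LinearMap.ker φ) := Module.finite_of_finrank_eq_succ h1
  have hfinq : Module.Finite K ((B ⧸ Ideal.span {a * t}) ⧸ LinearMap.ker φ) :=
    Module.Finite.equiv (φ.quotKerEquivOfSurjective hφ).symm
  have hfinV : Module.Finite K (B ⧸ Ideal.span {a * t}) :=
    Module.Finite.of_submodule_quotient (LinearMap.ker φ)
  refine ⟨hfinV, ?_⟩
  rw [mul_comm d c, Algebra.norm_apply, ← hnorm, Algebra.norm_apply]
  apply det_eq_mul_of_ker φ hφ
  · intro x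
    obtain ⟨b, rfl⟩ := Ideal.Quotient.mk_surjective x
    simp only [Algebra.coe_lmul_eq_mul, LinearMap.mul_apply', ← map_mul, hφmk]
  · intro x hx
    rw [hker, Submodule.mem_span_singleton] at hx
    obtain ⟨k, rfl⟩ := hx
    obtain ⟨s, hs⟩ := hz
    simp only [Algebra.coe_lmul_eq_mul, LinearMap.mul_apply', hsmul, ← map_mul]
    rw [Ideal.Quotient.eq, Ideal.mem_span_singleton]
    refine ⟨algebraMap K B k * s, ?_⟩
    linear_combination (algebraMap K B k * a) * hs
  · exact h1

theorem GoodAt.mul_pow {z a t : B} {c d : K} (h : GoodAt K z a d) (ha : a ≠ 0) (ht0 : t ≠ 0)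
    (ht : ¬ IsUnit t) (hres : ∀ b : B, ∃ k : K, t ∣ b - algebraMap K B k)
    (hz : t ∣ z - algebraMap K B c) (n : ℕ) : GoodAt K z (a * t ^ n) (d * c ^ n) := by
  induction n with
  | zero => simpa using h
  | succ n ih =>
    rw [pow_succ, pow_succ, ← mul_assoc, ← mul_assoc]
    exact ih.mul (mul_ne_zero ha (pow_ne_zero _ ht0)) ht hres hz

theorem goodAt_prod {ι : Type*} (s : Finset ι) (z : B) (t : ι → B) (c : ι → K) (n : ι → ℕ)
    (ht0 : ∀ i ∈ s, t i ≠ 0) (ht : ∀ i ∈ s, ¬ IsUnit (t i))
    (hres : ∀ i ∈ s, ∀ b : B, ∃ k : K, t i ∣ b - algebraMap K B k)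
    (hz : ∀ i ∈ s, t i ∣ z - algebraMap K B (c i)) :
    GoodAt K z (∏ i ∈ s, t i ^ n i) (∏ i ∈ s, c i ^ n i) := by
  classical
  induction s using Finset.induction_on with
  | empty => simpa using goodAt_one (K := K) z
  | insert i s hi ih =>
    rw [Finset.prod_insert hi, Finset.prod_insert hi, mul_comm, mul_comm (c i ^ n i)]
    have hs : ∀ j ∈ s, j ∈ insert i s := fun j hj => Finset.mem_insert_of_mem hj
    have hi' := Finset.mem_insert_self i s
    refine (ih (fun j hj => ht0 j (hs j hj)) (fun j hj => ht j (hs j hj))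
      (fun j hj => hres j (hs j hj)) (fun j hj => hz j (hs j hj))).mul_pow ?_ (ht0 i hi')
      (ht i hi') (hres i hi') (hz i hi') (n i)
    exact Finset.prod_ne_zero_iff.2 fun j hj => pow_ne_zero _ (ht0 j (hs j hj))

end Ring

section Local

open IsLocalRing Algebra

variable {R S : Type*} [CommRing R] [CommRing S] [Algebra R S] [Module.Free R S]
  [Module.Finite R S] [IsLocalRing R]

theorem norm_quotient_mk (x : S) :
    Algebra.norm (R ⧸ maximalIdeal R)
        (Ideal.Quotient.mk (Ideal.map (algebraMap R S) (maximalIdeal R)) x) =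
      Ideal.Quotient.mk (maximalIdeal R) (Algebra.norm R x) := by
  classical
  let ι := Module.Free.ChooseBasisIndex R S
  let b : Module.Basis ι R S := Module.Free.chooseBasis R S
  rw [Algebra.norm_eq_matrix_det b, Algebra.norm_eq_matrix_det (basisQuotient b), RingHom.map_det]
  congr 1
  ext i j
  simp only [leftMulMatrix_apply, coe_lmul_eq_mul, LinearMap.toMatrix_apply,
    basisQuotient_apply, LinearMap.mul_apply', RingHom.mapMatrix_apply, Matrix.map_apply, ← map_mul,
    basisQuotient_repr]

theorem norm_sub_mem_maximalIdeal {K : Type*} [Field K] [Algebra K R] [Algebra K S]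
    [IsScalarTower K R S] (hK : Function.Surjective (algebraMap K (R ⧸ maximalIdeal R))) (x : S) :
    Algebra.norm R x - algebraMap K R (Algebra.norm K
      (Ideal.Quotient.mk (Ideal.map (algebraMap R S) (maximalIdeal R)) x)) ∈ maximalIdeal R := by
  have hbij : Function.Bijective (algebraMap K (R ⧸ maximalIdeal R)) :=
    ⟨(algebraMap K (R ⧸ maximalIdeal R)).injective, hK⟩
  set e₁ : K ≃+* (R ⧸ maximalIdeal R) := RingEquiv.ofBijective _ hbij with he₁
  have h := Algebra.norm_eq_of_equiv_equiv e₁
    (RingEquiv.refl (S ⧸ Ideal.map (algebraMap R S) (maximalIdeal R))) (by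
      ext k
      show algebraMap (R ⧸ maximalIdeal R) (S ⧸ Ideal.map (algebraMap R S) (maximalIdeal R))
        (Ideal.Quotient.mk _ (algebraMap K R k)) = Ideal.Quotient.mk _ (algebraMap K S k)
      rw [IsScalarTower.algebraMap_apply K R S]
      rfl)
    (Ideal.Quotient.mk (Ideal.map (algebraMap R S) (maximalIdeal R)) x)
  rw [RingEquiv.refl_apply, norm_quotient_mk, RingEquiv.eq_symm_apply] at h
  rw [← Ideal.Quotient.eq, ← h]
  rfl

theorem norm_sub_mem_of_goodI {K : Type*} [Field K] [Algebra K R] [Algebra K S]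
    [IsScalarTower K R S] (hK : Function.Surjective (algebraMap K (R ⧸ maximalIdeal R))) (x : S)
    (I : Ideal S) (hI : I = Ideal.map (algebraMap R S) (maximalIdeal R)) (d : K)
    (h : GoodI K x I d) : Algebra.norm R x - algebraMap K R d ∈ maximalIdeal R := by
  subst hI
  rw [← h.2]
  exact norm_sub_mem_maximalIdeal hK x

end Local

end Fermat.Agent.S37.ValNorm
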